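import Mathlib

/-!
# S16, package L1 (level-one toolbox): vocabulary and interface statements

Everything is generic in a subring `R` of `ℂ` (instantiate `R` with the `ℓ`-integral algebraic
numbers, with `ℤ`, ...).  All statements are about `q`-expansions (`qExpansion 1`) of
level-one modular forms `ModularForm 𝒮ℒ k`.

* `RSer R`     : the subring of `PowerSeries ℂ` of series with all coefficients in `R`;
* `qE4 qE6 qD` : the `q`-expansions of `E₄`, `E₆`, `Δ`;
* `StINT`      : `E₄ = 1 + 240 Σ σ₃(n) qⁿ`, `E₆ = 1 - 504 Σ σ₅(n) qⁿ`, `Δ` has integer coefficients,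
                 constant coefficient `0` and `q`-coefficient `1`;
* `StTRI`      : triangular basis: a level-one form with coefficients in `R` is an `R`-linear
                 combination of the `Δ^a E₄^x E₆^y` with `12 a + 4 x + 6 y = k`;
* `StDEG`      : hence it is `≡ Σ_{a ≤ k/12} c_a Δ^a` modulo `24`, `c_a ∈ R`;
* `StORD`      : Sturm bound modulo `ℓ ∣ 24`: the order of `f` modulo `ℓ` is `≤ k / 12`;
* `StPOLY`     : if `1/6 ∈ R`, the form is an isobaric polynomial in `E₄`, `E₆` over `R`;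
* `StTAU`      : `τ(p²) = τ(p)² - p¹¹`.
-/

set_option autoImplicit false

namespace Fermat.Agent.S16x.L1

open ModularForm EisensteinSeries ModularFormClass UpperHalfPlane
open scoped MatrixGroups

/-- Power series over `ℂ` all of whose coefficients lie in the subring `R`. -/
def RSer (R : Subring ℂ) : Subring (PowerSeries ℂ) where
  carrier := {F | ∀ n, PowerSeries.coeff n F ∈ R}
  mul_mem' := by
    intro F G hF hG n
    rw [PowerSeries.coeff_mul]
    exact Subring.sum_mem _ fun x _ => Subring.mul_mem _ (hF _) (hG _)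
  one_mem' := by
    intro n
    rw [PowerSeries.coeff_one]
    split_ifs
    · exact Subring.one_mem _
    · exact Subring.zero_mem _
  add_mem' := by
    intro F G hF hG n
    rw [map_add]
    exact Subring.add_mem _ (hF _) (hG _)
  zero_mem' := by
    intro n
    rw [map_zero]
    exact Subring.zero_mem _
  neg_mem' := by
    intro F hF n
    rw [map_neg]
    exact Subring.neg_mem _ (hF _)

theorem mem_RSer {R : Subring ℂ} {F : PowerSeries ℂ} :
    F ∈ RSer R ↔ ∀ n, PowerSeries.coeff n F ∈ R := Iff.rfl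

/-- The `q`-expansion of `E₄`. -/
noncomputable def qE4 : PowerSeries ℂ := qExpansion 1 E₄

/-- The `q`-expansion of `E₆`. -/
noncomputable def qE6 : PowerSeries ℂ := qExpansion 1 E₆

/-- The `q`-expansion of `Δ`. -/
noncomputable def qD : PowerSeries ℂ := qExpansion 1 ModularForm.discriminant

/-- The generating series `Σ σ_k(n) qⁿ` over `ℂ`. -/
noncomputable def sigmaSer (k : ℕ) : PowerSeries ℂ :=
  PowerSeries.mk fun n => ((ArithmeticFunction.sigma k n : ℕ) : ℂ)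

/-- **[INT]** integrality of `E₄`, `E₆`, `Δ`. -/
def StINT : Prop :=
  qE4 = 1 + PowerSeries.C (240 : ℂ) * sigmaSer 3 ∧
  qE6 = 1 - PowerSeries.C (504 : ℂ) * sigmaSer 5 ∧
  (∀ n, ∃ t : ℤ, PowerSeries.coeff n qD = (t : ℂ)) ∧
  PowerSeries.coeff 0 qD = 0 ∧ PowerSeries.coeff 1 qD = 1

/-- **[TRI]** triangular basis with coefficients in `R`. -/
def StTRI : Prop :=
  ∀ (R : Subring ℂ) (k : ℤ) (f : ModularForm 𝒮ℒ k), qExpansion 1 f ∈ RSer R →
    ∃ (s : Finset (ℕ × ℕ × ℕ)) (c : ℕ × ℕ × ℕ → ℂ),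
      (∀ t ∈ s, c t ∈ R ∧ (12 * (t.1 : ℤ) + 4 * (t.2.1 : ℤ) + 6 * (t.2.2 : ℤ)) = k) ∧
      qExpansion 1 f = ∑ t ∈ s, PowerSeries.C (c t) * qD ^ t.1 * qE4 ^ t.2.1 * qE6 ^ t.2.2

/-- **[DEG]** `Δ`-degree modulo `24`. -/
def StDEG : Prop :=
  ∀ (R : Subring ℂ) (k : ℤ) (f : ModularForm 𝒮ℒ k), qExpansion 1 f ∈ RSer R →
    ∃ c : ℕ → ℂ, (∀ a, c a ∈ R) ∧
      (∀ a : ℕ, ¬ (12 * (a : ℤ) ≤ k ∧ k - 12 * (a : ℤ) ≠ 2) → c a = 0) ∧
      ∃ W ∈ RSer R, qExpansion 1 f =
        (∑ a ∈ Finset.range (k.toNat / 12 + 1), PowerSeries.C (c a) * qD ^ a)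
          + PowerSeries.C (24 : ℂ) * W

/-- **[ORD]** Sturm bound modulo a divisor `ℓ` of `24`. -/
def StORD : Prop :=
  ∀ (R : Subring ℂ) (ℓ : ℕ), ℓ ∣ 24 → ∀ (k : ℤ) (f : ModularForm 𝒮ℒ k),
    qExpansion 1 f ∈ RSer R → ∀ m : ℕ,
      (∀ n < m, ∃ r ∈ R, PowerSeries.coeff n (qExpansion 1 f) = (ℓ : ℂ) * r) →
      (¬ ∃ r ∈ R, PowerSeries.coeff m (qExpansion 1 f) = (ℓ : ℂ) * r) →
      12 * (m : ℤ) ≤ k

/-- **[POLY]** if `6` is invertible in `R`, a level-one form with coefficients in `R` is an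
isobaric polynomial in `E₄`, `E₆` with coefficients in `R`. -/
def StPOLY : Prop :=
  ∀ (R : Subring ℂ), (6 : ℂ)⁻¹ ∈ R → ∀ (k : ℤ) (f : ModularForm 𝒮ℒ k),
    qExpansion 1 f ∈ RSer R →
    ∃ P : MvPolynomial (Fin 2) R, MvPolynomial.IsWeightedHomogeneous ![4, 6] P k.toNat ∧
      qExpansion 1 f = MvPolynomial.aeval ![qE4, qE6] P

/-- **[TAU]** the Hecke relation `τ(p²) = τ(p)² - p¹¹`. -/
def StTAU : Prop :=
  ∀ p : ℕ, p.Prime →
    PowerSeries.coeff (p ^ 2) qD = (PowerSeries.coeff p qD) ^ 2 - (p : ℂ) ^ 11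

end Fermat.Agent.S16x.L1
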