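import Mathlib
import Fermat.Agent.S16x.L1.Defs

/-!
# S16, package L1: leaf [L1-DEG]  (helper13)

`StINT → StTRI → StDEG`: a level-one form of weight `k` whose `q`-expansion has coefficients in a
subring `R ⊆ ℂ` is congruent modulo `24` to a polynomial `Σ_{a ≤ k/12} c_a Δ^a`, `c_a ∈ R`
(and `c_a = 0` unless `12 a ≤ k`, `k - 12 a ≠ 2`).

Proof: in the triangular basis `Δ^a E₄^x E₆^y` one has `E₄^x E₆^y = 1 + 24 V`, `V` with integer
coefficients, because `E₄ = 1 + 24 (10 Σ σ₃ qⁿ)`, `E₆ = 1 - 24 (21 Σ σ₅ qⁿ)`; then group the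
triples `(a, x, y)` according to `a`.
-/

set_option autoImplicit false

namespace Fermat.Agent.S16x.L1.H13

open ModularForm EisensteinSeries ModularFormClass UpperHalfPlane
open scoped MatrixGroups

/-- Constants of `R` are in `RSer R`. -/
theorem C_mem_RSer (R : Subring ℂ) {c : ℂ} (hc : c ∈ R) : PowerSeries.C c ∈ RSer R := by
  intro m
  rw [PowerSeries.coeff_C]
  split_ifs
  · exact hc
  · exact Subring.zero_mem _

/-- Natural number constants are in `RSer R`. -/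
theorem C_natCast_mem_RSer (R : Subring ℂ) (n : ℕ) : PowerSeries.C ((n : ℂ)) ∈ RSer R :=
  C_mem_RSer R (natCast_mem R n)

/-- The divisor-sum series has coefficients in every subring. -/
theorem sigmaSer_mem_RSer (R : Subring ℂ) (k : ℕ) : sigmaSer k ∈ RSer R := by
  intro n
  rw [sigmaSer, PowerSeries.coeff_mk]
  exact natCast_mem R _

/-- `Δ` has coefficients in every subring (given `StINT`). -/
theorem qD_mem_RSer (hI : StINT) (R : Subring ℂ) : qD ∈ RSer R := by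
  intro n
  obtain ⟨t, ht⟩ := hI.2.2.1 n
  rw [ht]
  exact intCast_mem R t

/-- `E₄ = 1 + 24 V₄` with `V₄` integral. -/
theorem qE4_eq (hI : StINT) (R : Subring ℂ) :
    ∃ V ∈ RSer R, qE4 = 1 + PowerSeries.C (24 : ℂ) * V := by
  refine ⟨PowerSeries.C ((10 : ℕ) : ℂ) * sigmaSer 3,
    Subring.mul_mem _ (C_natCast_mem_RSer R 10) (sigmaSer_mem_RSer R 3), ?_⟩
  rw [hI.1, ← mul_assoc, ← map_mul]
  norm_num

/-- `E₆ = 1 + 24 V₆` with `V₆` integral. -/
theorem qE6_eq (hI : StINT) (R : Subring ℂ) :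
    ∃ V ∈ RSer R, qE6 = 1 + PowerSeries.C (24 : ℂ) * V := by
  refine ⟨-(PowerSeries.C ((21 : ℕ) : ℂ) * sigmaSer 5),
    Subring.neg_mem _ (Subring.mul_mem _ (C_natCast_mem_RSer R 21) (sigmaSer_mem_RSer R 5)), ?_⟩
  rw [hI.2.1, mul_neg, ← mul_assoc, ← map_mul, ← sub_eq_add_neg]
  norm_num

/-- Products of series of the shape `1 + 24 V` are of the same shape. -/
theorem one_add_mul (R : Subring ℂ) {F G : PowerSeries ℂ}
    (hF : ∃ V ∈ RSer R, F = 1 + PowerSeries.C (24 : ℂ) * V)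
    (hG : ∃ V ∈ RSer R, G = 1 + PowerSeries.C (24 : ℂ) * V) :
    ∃ V ∈ RSer R, F * G = 1 + PowerSeries.C (24 : ℂ) * V := by
  obtain ⟨U, hU, rfl⟩ := hF
  obtain ⟨V, hV, rfl⟩ := hG
  refine ⟨U + V + PowerSeries.C ((24 : ℕ) : ℂ) * (U * V), ?_, ?_⟩
  · exact Subring.add_mem _ (Subring.add_mem _ hU hV)
      (Subring.mul_mem _ (C_natCast_mem_RSer R 24) (Subring.mul_mem _ hU hV))
  · push_cast
    ring

/-- Powers of series of the shape `1 + 24 V` are of the same shape. -/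
theorem one_add_pow (R : Subring ℂ) {F : PowerSeries ℂ}
    (hF : ∃ V ∈ RSer R, F = 1 + PowerSeries.C (24 : ℂ) * V) (n : ℕ) :
    ∃ V ∈ RSer R, F ^ n = 1 + PowerSeries.C (24 : ℂ) * V := by
  induction n with
  | zero => exact ⟨0, Subring.zero_mem _, by simp⟩
  | succ n ih =>
    rw [pow_succ]
    exact one_add_mul R ih hF

/-- `E₄^x E₆^y = 1 + 24 V` with `V` integral. -/
theorem qE4_pow_mul_qE6_pow (hI : StINT) (R : Subring ℂ) (x y : ℕ) :
    ∃ V ∈ RSer R, qE4 ^ x * qE6 ^ y = 1 + PowerSeries.C (24 : ℂ) * V :=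
  one_add_mul R (one_add_pow R (qE4_eq hI R) x) (one_add_pow R (qE6_eq hI R) y)

/-- **[L1-DEG]**: `StINT → StTRI → StDEG`. -/
theorem stDEG_of (hI : StINT) (hT : StTRI) : StDEG := by
  intro R k f hf
  obtain ⟨s, c, hc, hq⟩ := hT R k f hf
  have hV : ∀ t : ℕ × ℕ × ℕ, ∃ V ∈ RSer R,
      qE4 ^ t.2.1 * qE6 ^ t.2.2 = 1 + PowerSeries.C (24 : ℂ) * V :=
    fun t => qE4_pow_mul_qE6_pow hI R t.2.1 t.2.2
  choose V hVmem hVeq using hV
  have hmaps : ∀ t ∈ s, t.1 ∈ Finset.range (k.toNat / 12 + 1) := by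
    intro t ht
    have h := (hc t ht).2
    rw [Finset.mem_range, Nat.lt_succ_iff, Nat.le_div_iff_mul_le (by norm_num)]
    omega
  refine ⟨fun a => ∑ t ∈ s with t.1 = a, c t, ?_, ?_,
    ∑ t ∈ s, PowerSeries.C (c t) * qD ^ t.1 * V t, ?_, ?_⟩
  · intro a
    exact Subring.sum_mem _ fun t ht => (hc t (Finset.mem_filter.mp ht).1).1
  · intro a ha
    apply Finset.sum_eq_zero
    intro t ht
    exfalso
    obtain ⟨hts, hta⟩ := Finset.mem_filter.mp ht
    have h := (hc t hts).2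
    apply ha
    subst hta
    constructor <;> omega
  · exact Subring.sum_mem _ fun t ht =>
      Subring.mul_mem _ (Subring.mul_mem _ (C_mem_RSer R (hc t ht).1)
        (Subring.pow_mem _ (qD_mem_RSer hI R) _)) (hVmem t)
  · rw [hq]
    have h1 : ∑ a ∈ Finset.range (k.toNat / 12 + 1),
        PowerSeries.C (∑ t ∈ s with t.1 = a, c t) * qD ^ a
        = ∑ t ∈ s, PowerSeries.C (c t) * qD ^ t.1 := by
      rw [← Finset.sum_fiberwise_of_maps_to hmaps]
      refine Finset.sum_congr rfl fun a _ => ?_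
      rw [map_sum, Finset.sum_mul]
      refine Finset.sum_congr rfl fun t ht => ?_
      rw [(Finset.mem_filter.mp ht).2]
    rw [h1, Finset.mul_sum, ← Finset.sum_add_distrib]
    refine Finset.sum_congr rfl fun t _ => ?_
    rw [mul_assoc (PowerSeries.C (c t) * qD ^ t.1), hVeq t]
    ring

end Fermat.Agent.S16x.L1.H13
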