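import Mathlib
import Fermat.Agent.S16x.L1.Defs

/-!
# S16, package L1: leaf [L1-ORD]  (helper13)

`StINT → StDEG → StORD`: Sturm bound modulo a divisor `ℓ` of `24` for level-one forms with
coefficients in a subring `R ⊆ ℂ`: if `a_n(f) ∈ ℓ R` for all `n < m` and `a_m(f) ∉ ℓ R`, then
`12 m ≤ k`.

Proof: modulo `24` (hence modulo `ℓ`) `f ≡ Σ_a c_a Δ^a` with `c_a = 0` for `12 a > k`;
`Δ^a = q^a + ...` (triangularity), so by induction `c_a ∈ ℓ R` for `a < m`, and then
`a_m(f) ≡ c_m` modulo `ℓ R`, so `c_m ≠ 0`, so `12 m ≤ k`.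
-/

set_option autoImplicit false

namespace Fermat.Agent.S16x.L1.H13

open ModularForm EisensteinSeries ModularFormClass UpperHalfPlane
open scoped MatrixGroups

/-- `x ∈ ℓ R`. -/
def InMul (R : Subring ℂ) (ℓ : ℕ) (x : ℂ) : Prop := ∃ r ∈ R, x = (ℓ : ℂ) * r

theorem inMul_zero (R : Subring ℂ) (ℓ : ℕ) : InMul R ℓ 0 :=
  ⟨0, Subring.zero_mem _, by simp⟩

theorem inMul_add {R : Subring ℂ} {ℓ : ℕ} {x y : ℂ} (hx : InMul R ℓ x) (hy : InMul R ℓ y) :
    InMul R ℓ (x + y) := by
  obtain ⟨r, hr, rfl⟩ := hx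
  obtain ⟨s, hs, rfl⟩ := hy
  exact ⟨r + s, Subring.add_mem _ hr hs, by ring⟩

theorem inMul_sub {R : Subring ℂ} {ℓ : ℕ} {x y : ℂ} (hx : InMul R ℓ x) (hy : InMul R ℓ y) :
    InMul R ℓ (x - y) := by
  obtain ⟨r, hr, rfl⟩ := hx
  obtain ⟨s, hs, rfl⟩ := hy
  exact ⟨r - s, Subring.sub_mem _ hr hs, by ring⟩

theorem inMul_mul_right {R : Subring ℂ} {ℓ : ℕ} {x y : ℂ} (hx : InMul R ℓ x) (hy : y ∈ R) :
    InMul R ℓ (x * y) := by
  obtain ⟨r, hr, rfl⟩ := hx
  exact ⟨r * y, Subring.mul_mem _ hr hy, by ring⟩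

theorem inMul_sum {R : Subring ℂ} {ℓ : ℕ} {ι : Type*} (s : Finset ι) (g : ι → ℂ)
    (h : ∀ i ∈ s, InMul R ℓ (g i)) : InMul R ℓ (∑ i ∈ s, g i) := by
  classical
  induction s using Finset.induction_on with
  | empty => simpa using inMul_zero R ℓ
  | insert a s ha ih =>
    rw [Finset.sum_insert ha]
    exact inMul_add (h a (Finset.mem_insert_self a s))
      (ih fun i hi => h i (Finset.mem_insert_of_mem hi))

/-- `24 w ∈ ℓ R` for `ℓ ∣ 24`, `w ∈ R`. -/
theorem inMul_24 {R : Subring ℂ} {ℓ : ℕ} (hℓ : ℓ ∣ 24) {w : ℂ} (hw : w ∈ R) :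
    InMul R ℓ ((24 : ℂ) * w) := by
  obtain ⟨d, hd⟩ := hℓ
  refine ⟨(d : ℂ) * w, Subring.mul_mem _ (natCast_mem R d) hw, ?_⟩
  have : (24 : ℂ) = (ℓ : ℂ) * (d : ℂ) := by exact_mod_cast congrArg (Nat.cast : ℕ → ℂ) hd
  rw [this]
  ring

/-- Triangularity: `Δ^a = q^a + O(q^(a+1))`. -/
theorem coeff_qD_pow (hI : StINT) (a n : ℕ) :
    PowerSeries.coeff n (qD ^ a) = if n < a then 0 else if n = a then 1
      else PowerSeries.coeff n (qD ^ a) := by
  obtain ⟨D', hD'⟩ := PowerSeries.X_dvd_iff.mpr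
    (show PowerSeries.constantCoeff qD = 0 by
      rw [← PowerSeries.coeff_zero_eq_constantCoeff_apply]; exact hI.2.2.2.1)
  have h1 : PowerSeries.constantCoeff D' = 1 := by
    have := hI.2.2.2.2
    rw [hD', show (1 : ℕ) = 0 + 1 from rfl, PowerSeries.coeff_succ_X_mul] at this
    rwa [PowerSeries.coeff_zero_eq_constantCoeff_apply] at this
  have hpow : qD ^ a = PowerSeries.X ^ a * D' ^ a := by rw [hD', mul_pow]
  split_ifs with h h'
  · rw [hpow, PowerSeries.coeff_X_pow_mul', if_neg (by omega)]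
  · subst h'
    rw [hpow, PowerSeries.coeff_X_pow_mul', if_pos le_rfl, Nat.sub_self,
      PowerSeries.coeff_zero_eq_constantCoeff_apply, map_pow, h1, one_pow]
  · rfl

theorem coeff_qD_pow_of_lt (hI : StINT) {a n : ℕ} (h : n < a) :
    PowerSeries.coeff n (qD ^ a) = 0 := by
  rw [coeff_qD_pow hI, if_pos h]

theorem coeff_qD_pow_self (hI : StINT) (a : ℕ) :
    PowerSeries.coeff a (qD ^ a) = 1 := by
  rw [coeff_qD_pow hI, if_neg (lt_irrefl _), if_pos rfl]

theorem coeff_qD_pow_mem (hI : StINT) (R : Subring ℂ) (a n : ℕ) :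
    PowerSeries.coeff n (qD ^ a) ∈ R := by
  have hD : qD ∈ RSer R := by
    intro n
    obtain ⟨t, ht⟩ := hI.2.2.1 n
    rw [ht]
    exact intCast_mem R t
  exact Subring.pow_mem (RSer R) hD a n

/-- **[L1-ORD]**: `StINT → StDEG → StORD`. -/
theorem stORD_of (hI : StINT) (hD : StDEG) : StORD := by
  intro R ℓ hℓ k f hf m hlt hm
  obtain ⟨c, hcR, hc0, W, hW, hq⟩ := hD R k f hf
  by_contra hk
  -- coefficient formula
  have hcoeff : ∀ n, PowerSeries.coeff n (qExpansion 1 f) =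
      (∑ a ∈ Finset.range (k.toNat / 12 + 1), c a * PowerSeries.coeff n (qD ^ a))
        + 24 * PowerSeries.coeff n W := by
    intro n
    rw [hq, map_add, map_sum, PowerSeries.coeff_C_mul]
    congr 1
    exact Finset.sum_congr rfl fun a _ => PowerSeries.coeff_C_mul _ _ _
  -- all `c a`, `a < m`, are in `ℓ R`
  have hind : ∀ a, a < m → InMul R ℓ (c a) := by
    intro a
    induction a using Nat.strong_induction_on with
    | _ a ih =>
      intro ham
      by_cases haK : a ∈ Finset.range (k.toNat / 12 + 1)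
      · have h1 := hcoeff a
        rw [← Finset.add_sum_erase _ _ haK, coeff_qD_pow_self hI, mul_one] at h1
        have h2 : c a = PowerSeries.coeff a (qExpansion 1 f)
            - (∑ b ∈ (Finset.range (k.toNat / 12 + 1)).erase a,
                c b * PowerSeries.coeff a (qD ^ b))
            - 24 * PowerSeries.coeff a W := by
          rw [h1]; ring
        rw [h2]
        refine inMul_sub (inMul_sub (hlt a ham) (inMul_sum _ _ ?_)) (inMul_24 hℓ (hW a))
        intro b hb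
        obtain ⟨hba, _⟩ := Finset.mem_erase.mp hb
        rcases Nat.lt_or_gt_of_ne hba with hlt' | hgt
        · exact inMul_mul_right (ih b hlt' (hlt'.trans ham)) (coeff_qD_pow_mem hI R b a)
        · rw [coeff_qD_pow_of_lt hI hgt, mul_zero]
          exact inMul_zero R ℓ
      · have : c a = 0 := by
          apply hc0
          rw [Finset.mem_range, Nat.lt_succ_iff, Nat.le_div_iff_mul_le (by norm_num)] at haK
          omega
        rw [this]
        exact inMul_zero R ℓ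
  -- `c m = 0` since `12 m > k`
  have hcm : c m = 0 := hc0 m (fun h => hk h.1)
  apply hm
  have h1 := hcoeff m
  show InMul R ℓ (PowerSeries.coeff m (qExpansion 1 f))
  rw [h1]
  refine inMul_add (inMul_sum _ _ ?_) (inMul_24 hℓ (hW m))
  intro b _
  rcases Nat.lt_trichotomy b m with hlt' | heq | hgt
  · exact inMul_mul_right (hind b hlt') (coeff_qD_pow_mem hI R b m)
  · subst heq
    rw [hcm, zero_mul]
    exact inMul_zero R ℓ
  · rw [coeff_qD_pow_of_lt hI hgt, mul_zero]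
    exact inMul_zero R ℓ

end Fermat.Agent.S16x.L1.H13
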