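import Fermat.Agent.S16x.L1.H15_Int

/-!
# S16, package L1: the triangular basis with coefficients in a subring (`StTRI`)

A level-one modular form of weight `k` whose `q`-expansion has coefficients in a subring `R` of
`ℂ` is an `R`-linear combination of the monomials `Δ^a E₄^x E₆^y`, `12 a + 4 x + 6 y = k`.

* `Mono k`, `TSpan R k` : the monomials of weight `k` and their `R`-span (a submodule of
  `PowerSeries ℂ`);
* `h15_mem_TSpan` : the `q`-expansion lies in `TSpan R k`;
* `h15_stTRI : StTRI`.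
-/

set_option autoImplicit false

namespace Fermat.Agent.S16x.L1.H15

open ModularForm EisensteinSeries ModularFormClass UpperHalfPlane PowerSeries
open scoped MatrixGroups

/-- The monomials `Δ^a E₄^x E₆^y` of weight `k`. -/
def Mono (k : ℤ) : Set (PowerSeries ℂ) :=
  {F | ∃ a x y : ℕ, 12 * (a : ℤ) + 4 * (x : ℤ) + 6 * (y : ℤ) = k ∧
    F = qD ^ a * qE4 ^ x * qE6 ^ y}

/-- The `R`-span of the monomials of weight `k`. -/
def TSpan (R : Subring ℂ) (k : ℤ) : Submodule R (PowerSeries ℂ) := Submodule.span R (Mono k)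

theorem h15_smul_eq (R : Subring ℂ) (r : R) (F : PowerSeries ℂ) :
    r • F = PowerSeries.C (r : ℂ) * F := by
  ext n
  rw [PowerSeries.coeff_C_mul]
  rfl

theorem h15_mono_mem {R : Subring ℂ} {k : ℤ} {a x y : ℕ}
    (h : 12 * (a : ℤ) + 4 * (x : ℤ) + 6 * (y : ℤ) = k) :
    qD ^ a * qE4 ^ x * qE6 ^ y ∈ TSpan R k :=
  Submodule.subset_span ⟨a, x, y, h, rfl⟩

theorem h15_qD_mul_mem_TSpan {R : Subring ℂ} {k : ℤ} {F : PowerSeries ℂ}
    (h : F ∈ TSpan R (k - 12)) : qD * F ∈ TSpan R k := by
  induction h using Submodule.span_induction with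
  | mem F hF =>
    obtain ⟨a, x, y, hk, rfl⟩ := hF
    have e : qD * (qD ^ a * qE4 ^ x * qE6 ^ y) = qD ^ (a + 1) * qE4 ^ x * qE6 ^ y := by ring
    rw [e]
    exact h15_mono_mem (by push_cast; linarith)
  | zero => rw [mul_zero]; exact Submodule.zero_mem _
  | add F G _ _ hF hG => rw [mul_add]; exact Submodule.add_mem _ hF hG
  | smul r F _ hF => rw [mul_smul_comm]; exact Submodule.smul_mem _ r hF

theorem h15_qExpansion_zero_fun : qExpansion 1 (0 : ℍ → ℂ) = 0 := qExpansion_zero 1

/-- Existence of exponents `4 x + 6 y = k` for even `k ≥ 4`. -/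
theorem h15_exists_xy {k : ℕ} (hk : 4 ≤ k) (hev : Even k) : ∃ x y : ℕ, 4 * x + 6 * y = k := by
  obtain ⟨m, hm⟩ := hev
  rcases Nat.even_or_odd m with ⟨j, hj⟩ | ⟨j, hj⟩
  · exact ⟨j, 0, by omega⟩
  · exact ⟨j - 1, 1, by omega⟩

/-- The monomial `E₄^x E₆^y` as a modular form of weight `k`. -/
noncomputable def eMono {k : ℤ} (x y : ℕ) (h : 4 * (x : ℤ) + 6 * (y : ℤ) = k) :
    ModularForm 𝒮ℒ k :=
  ModularForm.mcast (by rw [← h]; ring) ((E₄.pow x).mul (E₆.pow y))

theorem h15_qExpansion_eMono {k : ℤ} (x y : ℕ) (h : 4 * (x : ℤ) + 6 * (y : ℤ) = k) :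
    qExpansion 1 (eMono x y h) = qE4 ^ x * qE6 ^ y := by
  rw [eMono, ModularForm.qExpansion_mcast,
    ModularForm.qExpansion_mul one_pos one_mem_strictPeriods_SL,
    ModularForm.qExpansion_pow one_pos one_mem_strictPeriods_SL,
    ModularForm.qExpansion_pow one_pos one_mem_strictPeriods_SL]
  rfl

theorem h15_coeff_zero_mono (x y : ℕ) : PowerSeries.coeff 0 (qE4 ^ x * qE6 ^ y) = 1 := by
  have h4 : PowerSeries.constantCoeff qE4 = 1 := by
    rw [← PowerSeries.coeff_zero_eq_constantCoeff_apply]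
    exact h15_coeff_zero_qE4
  have h6 : PowerSeries.constantCoeff qE6 = 1 := by
    rw [← PowerSeries.coeff_zero_eq_constantCoeff_apply]
    exact h15_coeff_zero_qE6
  rw [PowerSeries.coeff_zero_eq_constantCoeff_apply, map_mul, map_pow, map_pow, h4, h6,
    one_pow, one_pow, one_mul]

theorem h15_mono_mem_RSer (R : Subring ℂ) (x y : ℕ) : qE4 ^ x * qE6 ^ y ∈ RSer R :=
  Subring.mul_mem _ (Subring.pow_mem _ (h15_qE4_mem R) x) (Subring.pow_mem _ (h15_qE6_mem R) y)

/-- The structure theorem for natural weights. -/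
theorem h15_tri_nat (R : Subring ℂ) (k : ℕ) :
    ∀ f : ModularForm 𝒮ℒ (k : ℤ), qExpansion 1 f ∈ RSer R → qExpansion 1 f ∈ TSpan R k := by
  induction k using Nat.strong_induction_on with
  | _ k ih =>
  intro f hf
  rcases Nat.even_or_odd k with hev | hodd
  · by_cases hk4 : 4 ≤ k
    · obtain ⟨x, y, hxy⟩ := h15_exists_xy hk4 hev
      have hxy' : 4 * (x : ℤ) + 6 * (y : ℤ) = (k : ℤ) := by exact_mod_cast hxy
      set a0 : ℂ := PowerSeries.coeff 0 (qExpansion 1 f) with ha0
      have ha0R : a0 ∈ R := hf 0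
      set g : ModularForm 𝒮ℒ (k : ℤ) := eMono x y hxy' with hg
      set f' : ModularForm 𝒮ℒ (k : ℤ) := f - a0 • g with hf'
      have hqf' : qExpansion 1 f' = qExpansion 1 f - PowerSeries.C a0 * (qE4 ^ x * qE6 ^ y) := by
        have e1 : (⇑f' : ℍ → ℂ) = ⇑f - ⇑(a0 • g) := rfl
        have e2 : (⇑(a0 • g) : ℍ → ℂ) = a0 • ⇑g := rfl
        rw [e1, ModularForm.qExpansion_sub one_pos one_mem_strictPeriods_SL, e2,
          ModularForm.qExpansion_smul one_pos one_mem_strictPeriods_SL, hg,
          h15_qExpansion_eMono, PowerSeries.smul_eq_C_mul]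
      have h0 : PowerSeries.coeff 0 (qExpansion 1 f') = 0 := by
        rw [hqf', map_sub, PowerSeries.coeff_C_mul, h15_coeff_zero_mono, mul_one, sub_self]
      have hf'R : qExpansion 1 f' ∈ RSer R := by
        rw [hqf']
        exact Subring.sub_mem _ hf (Subring.mul_mem _ (h15_C_mem ha0R) (h15_mono_mem_RSer R x y))
      have hdiv := qExpansion_eq_qExpansion_discriminant_mul f' h0
      set h : ModularForm 𝒮ℒ ((k : ℤ) - 12) := CuspForm.discriminantEquiv (toCuspForm f' h0)
        with hh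
      have hhR : qExpansion 1 h ∈ RSer R := by
        apply h15_of_qD_mul_mem
        rw [qD, ← hdiv]
        exact hf'R
      have hmain : qExpansion 1 f' ∈ TSpan R k := by
        rw [hdiv]
        apply h15_qD_mul_mem_TSpan
        by_cases hk12 : 12 ≤ k
        · have e : ((k : ℤ) - 12) = ((k - 12 : ℕ) : ℤ) := by omega
          have h2 : qExpansion 1 h ∈ TSpan R ((k - 12 : ℕ) : ℤ) :=
            ih (k - 12) (by omega) (ModularForm.mcast e h rfl) hhR
          rwa [← e] at h2
        · have hneg : ((k : ℤ) - 12) < 0 := by omega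
          have hz : (h : ℍ → ℂ) = 0 := levelOne_neg_weight_eq_zero hneg h
          rw [hz, h15_qExpansion_zero_fun]
          exact Submodule.zero_mem _
      have e : qExpansion 1 f = qExpansion 1 f' + (⟨a0, ha0R⟩ : R) • (qD ^ 0 * qE4 ^ x * qE6 ^ y) := by
        rw [hqf', h15_smul_eq, pow_zero, one_mul]
        ring
      rw [e]
      refine Submodule.add_mem _ hmain (Submodule.smul_mem _ _ (h15_mono_mem ?_))
      push_cast
      linarith
    · -- `k = 0` or `k = 2`
      have hk02 : k = 0 ∨ k = 2 := by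
        obtain ⟨m, hm⟩ := hev
        omega
      rcases hk02 with rfl | rfl
      · obtain ⟨c, hc⟩ := levelOne_weight_zero_const f
        have hfc : f = c • (1 : ModularForm 𝒮ℒ 0) := by
          ext z
          have := congrFun hc z
          simpa using this
        have hq : qExpansion 1 f = PowerSeries.C c := by
          have e2 : (⇑f : ℍ → ℂ) = c • ⇑(1 : ModularForm 𝒮ℒ 0) := by
            rw [hfc]
            rfl
          rw [e2, ModularForm.qExpansion_smul one_pos one_mem_strictPeriods_SL,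
            ModularForm.qExpansion_one, PowerSeries.smul_eq_C_mul, mul_one]
        have hcR : c ∈ R := by
          have := hf 0
          rw [hq] at this
          simpa using this
        have e : qExpansion 1 f = (⟨c, hcR⟩ : R) • (qD ^ 0 * qE4 ^ 0 * qE6 ^ 0) := by
          rw [hq, h15_smul_eq]
          simp
        rw [e]
        exact Submodule.smul_mem _ _ (h15_mono_mem (by simp))
      · have hz : f = 0 :=
          rank_zero_iff_forall_zero.mp levelOne_weight_two_rank_zero f
        rw [hz]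
        have : qExpansion 1 ((0 : ModularForm 𝒮ℒ ((2 : ℕ) : ℤ)) : ℍ → ℂ) = 0 := qExpansion_zero 1
        rw [this]
        exact Submodule.zero_mem _
  · have hz : f = 0 := levelOne_odd_weight_eq_zero (by exact_mod_cast hodd) f
    rw [hz]
    have : qExpansion 1 ((0 : ModularForm 𝒮ℒ (k : ℤ)) : ℍ → ℂ) = 0 := qExpansion_zero 1
    rw [this]
    exact Submodule.zero_mem _

/-- The structure theorem for all weights. -/
theorem h15_mem_TSpan (R : Subring ℂ) (k : ℤ) (f : ModularForm 𝒮ℒ k)
    (hf : qExpansion 1 f ∈ RSer R) : qExpansion 1 f ∈ TSpan R k := by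
  rcases lt_or_ge k 0 with hk | hk
  · have hz : (f : ℍ → ℂ) = 0 := levelOne_neg_weight_eq_zero hk f
    rw [hz, h15_qExpansion_zero_fun]
    exact Submodule.zero_mem _
  · lift k to ℕ using hk
    exact h15_tri_nat R k f hf

/-- From the span to explicit coefficients. -/
theorem h15_exists_of_mem_TSpan {R : Subring ℂ} {k : ℤ} {F : PowerSeries ℂ}
    (h : F ∈ TSpan R k) :
    ∃ (s : Finset (ℕ × ℕ × ℕ)) (c : ℕ × ℕ × ℕ → ℂ),
      (∀ t ∈ s, c t ∈ R ∧ (12 * (t.1 : ℤ) + 4 * (t.2.1 : ℤ) + 6 * (t.2.2 : ℤ)) = k) ∧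
      F = ∑ t ∈ s, PowerSeries.C (c t) * qD ^ t.1 * qE4 ^ t.2.1 * qE6 ^ t.2.2 := by
  classical
  induction h using Submodule.span_induction with
  | mem F hF =>
    obtain ⟨a, x, y, hk, rfl⟩ := hF
    refine ⟨{(a, x, y)}, fun _ => 1, fun t ht => ?_, ?_⟩
    · rw [Finset.mem_singleton] at ht
      subst ht
      exact ⟨Subring.one_mem _, hk⟩
    · simp
  | zero => exact ⟨∅, fun _ => 0, fun t ht => by simp at ht, by simp⟩
  | add F G _ _ hF hG =>
    obtain ⟨s1, c1, h1, rfl⟩ := hF
    obtain ⟨s2, c2, h2, rfl⟩ := hG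
    refine ⟨s1 ∪ s2, fun t => (if t ∈ s1 then c1 t else 0) + (if t ∈ s2 then c2 t else 0),
      fun t ht => ⟨?_, ?_⟩, ?_⟩
    · refine Subring.add_mem _ ?_ ?_
      · split_ifs with h
        · exact (h1 t h).1
        · exact Subring.zero_mem _
      · split_ifs with h
        · exact (h2 t h).1
        · exact Subring.zero_mem _
    · rcases Finset.mem_union.mp ht with h | h
      · exact (h1 t h).2
      · exact (h2 t h).2
    · have e1 : ∑ t ∈ s1, PowerSeries.C (c1 t) * qD ^ t.1 * qE4 ^ t.2.1 * qE6 ^ t.2.2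
          = ∑ t ∈ s1 ∪ s2, PowerSeries.C (if t ∈ s1 then c1 t else 0) * qD ^ t.1 * qE4 ^ t.2.1
              * qE6 ^ t.2.2 := by
        rw [← Finset.sum_subset (Finset.subset_union_left (s₁ := s1) (s₂ := s2))]
        · exact Finset.sum_congr rfl fun t ht => by rw [if_pos ht]
        · intro t _ ht
          rw [if_neg ht]
          simp
      have e2 : ∑ t ∈ s2, PowerSeries.C (c2 t) * qD ^ t.1 * qE4 ^ t.2.1 * qE6 ^ t.2.2
          = ∑ t ∈ s1 ∪ s2, PowerSeries.C (if t ∈ s2 then c2 t else 0) * qD ^ t.1 * qE4 ^ t.2.1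
              * qE6 ^ t.2.2 := by
        rw [← Finset.sum_subset (Finset.subset_union_right (s₁ := s1) (s₂ := s2))]
        · exact Finset.sum_congr rfl fun t ht => by rw [if_pos ht]
        · intro t _ ht
          rw [if_neg ht]
          simp
      rw [e1, e2, ← Finset.sum_add_distrib]
      refine Finset.sum_congr rfl fun t _ => ?_
      rw [map_add]
      ring
  | smul r F _ hF =>
    obtain ⟨s, c, h1, rfl⟩ := hF
    refine ⟨s, fun t => (r : ℂ) * c t, fun t ht => ⟨Subring.mul_mem _ r.2 (h1 t ht).1,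
      (h1 t ht).2⟩, ?_⟩
    rw [h15_smul_eq, Finset.mul_sum]
    refine Finset.sum_congr rfl fun t _ => ?_
    rw [map_mul]
    ring

/-- **[TRI]**. -/
theorem h15_stTRI : StTRI := fun R k f hf =>
  h15_exists_of_mem_TSpan (h15_mem_TSpan R k f hf)

end Fermat.Agent.S16x.L1.H15
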