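import Mathlib
import Fermat.Agent.S16x.L1.Defs
import Fermat.Agent.S16x.L1.H15_Tri
import Fermat.Agent.S16x.L1.H13_Deg
import Fermat.Agent.S16x.L1.H13_Ord

/-!
# S16, package L1: `StDEG` and `StORD`, hypothesis-free  (helper13)

`stDEG : StDEG` and `stORD : StORD`, from helper15's `h15_stINT`, `h15_stTRI` and the leaves
`stDEG_of`, `stORD_of`.
-/

set_option autoImplicit false

namespace Fermat.Agent.S16x.L1.H13

/-- **[L1-DEG]**, hypothesis-free. -/
theorem stDEG : StDEG := stDEG_of H15.h15_stINT H15.h15_stTRI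

/-- **[L1-ORD]**, hypothesis-free: Sturm bound modulo `ℓ ∣ 24` for level-one forms with
coefficients in a subring `R ⊆ ℂ`. -/
theorem stORD : StORD := stORD_of H15.h15_stINT stDEG

end Fermat.Agent.S16x.L1.H13
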