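import Fermat.Agent.S16x.L1.Defs
import Fermat.Agent.S24.H6_Formal

/-!
# S16, package L1: integrality of `E₄`, `E₆`, `Δ` (`StINT`) and division by `Δ`

* `h15_stINT : StINT`;
* `h15_qE4_mem`, `h15_qE6_mem`, `h15_qD_mem` : the three `q`-expansions lie in `RSer R` for
  every subring `R` of `ℂ`;
* `h15_of_qD_mul_mem` : if `Δ * G` has coefficients in `R`, so has `G`.
-/

set_option autoImplicit false

namespace Fermat.Agent.S16x.L1.H15

open ModularForm EisensteinSeries ModularFormClass UpperHalfPlane PowerSeries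
open scoped MatrixGroups

theorem h15_map_int_mem (R : Subring ℂ) (F : PowerSeries ℤ) :
    F.map (Int.castRingHom ℂ) ∈ RSer R := by
  intro n
  rw [PowerSeries.coeff_map]
  exact intCast_mem R _

theorem h15_C_mem {R : Subring ℂ} {c : ℂ} (hc : c ∈ R) : PowerSeries.C c ∈ RSer R := by
  intro n
  rw [PowerSeries.coeff_C]
  split_ifs
  · exact hc
  · exact Subring.zero_mem _

theorem h15_X_mem (R : Subring ℂ) : (PowerSeries.X : PowerSeries ℂ) ∈ RSer R := by
  intro n
  rw [PowerSeries.coeff_X]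
  split_ifs
  · exact Subring.one_mem _
  · exact Subring.zero_mem _

theorem h15_sigmaSer_mem (R : Subring ℂ) (k : ℕ) : sigmaSer k ∈ RSer R := by
  intro n
  rw [sigmaSer, PowerSeries.coeff_mk]
  exact natCast_mem R _

theorem h15_bernoulli_four : bernoulli 4 = -1 / 30 := by
  simp [bernoulli, bernoulli'_four]
  norm_num

theorem h15_bernoulli_six : bernoulli 6 = 1 / 42 := by
  decide +kernel

theorem h15_qE4_eq : qE4 = 1 + PowerSeries.C (240 : ℂ) * sigmaSer 3 := by
  ext m
  have h := EisensteinSeries.E_qExpansion_coeff (k := 4) (by norm_num) (by decide) m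
  rw [show qE4 = qExpansion 1 ⇑(E (k := 4) (by norm_num)) from rfl, h, map_add,
    PowerSeries.coeff_C_mul, sigmaSer, PowerSeries.coeff_mk, PowerSeries.coeff_one]
  split_ifs with hm
  · subst hm
    simp
  · rw [h15_bernoulli_four]
    push_cast
    ring

theorem h15_qE6_eq : qE6 = 1 - PowerSeries.C (504 : ℂ) * sigmaSer 5 := by
  ext m
  have h := EisensteinSeries.E_qExpansion_coeff (k := 6) (by norm_num) (by decide) m
  rw [show qE6 = qExpansion 1 ⇑(E (k := 6) (by norm_num)) from rfl, h, map_sub,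
    PowerSeries.coeff_C_mul, sigmaSer, PowerSeries.coeff_mk, PowerSeries.coeff_one]
  split_ifs with hm
  · subst hm
    simp
  · rw [h15_bernoulli_six]
    push_cast
    ring

/-- The unit part of `Δ = q * ∏ (1 - qⁿ)^24` over `ℂ`. -/
noncomputable def etaU : PowerSeries ℂ := ModularCurve.dedekindEtaUnit.map (Int.castRingHom ℂ)

/-- Its inverse. -/
noncomputable def etaUInv : PowerSeries ℂ :=
  ModularCurve.dedekindEtaUnitInv.map (Int.castRingHom ℂ)

theorem h15_etaU_mul_inv : etaU * etaUInv = 1 := by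
  rw [etaU, etaUInv, ← map_mul, ModularCurve.dedekindEtaUnit_mul_inv, map_one]

theorem h15_qD_eq : qD = PowerSeries.X * etaU := by
  rw [qD, Fermat.Agent.S24.Real.qExpansion_discriminant, Fermat.Agent.S24.Real.deltaZ, map_mul,
    PowerSeries.map_X, etaU]

theorem h15_qE4_mem (R : Subring ℂ) : qE4 ∈ RSer R := by
  rw [h15_qE4_eq]
  exact Subring.add_mem _ (Subring.one_mem _)
    (Subring.mul_mem _ (h15_C_mem (by exact_mod_cast natCast_mem R 240)) (h15_sigmaSer_mem R 3))

theorem h15_qE6_mem (R : Subring ℂ) : qE6 ∈ RSer R := by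
  rw [h15_qE6_eq]
  exact Subring.sub_mem _ (Subring.one_mem _)
    (Subring.mul_mem _ (h15_C_mem (by exact_mod_cast natCast_mem R 504)) (h15_sigmaSer_mem R 5))

theorem h15_qD_mem (R : Subring ℂ) : qD ∈ RSer R := by
  rw [qD, Fermat.Agent.S24.Real.qExpansion_discriminant]
  exact h15_map_int_mem R _

theorem h15_coeff_zero_qD : PowerSeries.coeff 0 qD = 0 := by
  rw [h15_qD_eq]
  simp

theorem h15_coeff_one_qD : PowerSeries.coeff 1 qD = 1 :=
  discriminant_qExpansion_coeff_one

theorem h15_coeff_zero_qE4 : PowerSeries.coeff 0 qE4 = 1 :=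
  E_qExpansion_coeff_zero _ ⟨2, rfl⟩

theorem h15_coeff_zero_qE6 : PowerSeries.coeff 0 qE6 = 1 :=
  E_qExpansion_coeff_zero _ ⟨3, rfl⟩

/-- **[INT]**. -/
theorem h15_stINT : StINT := by
  refine ⟨h15_qE4_eq, h15_qE6_eq, fun n => ?_, h15_coeff_zero_qD, h15_coeff_one_qD⟩
  rw [qD, Fermat.Agent.S24.Real.qExpansion_discriminant, PowerSeries.coeff_map]
  exact ⟨_, rfl⟩

/-- Division by `X`. -/
theorem h15_of_X_mul_mem {R : Subring ℂ} {G : PowerSeries ℂ}
    (h : PowerSeries.X * G ∈ RSer R) : G ∈ RSer R := by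
  intro n
  have := h (n + 1)
  rwa [PowerSeries.coeff_succ_X_mul] at this

/-- Division by `Δ`: if `Δ * G` has coefficients in `R`, so has `G`. -/
theorem h15_of_qD_mul_mem {R : Subring ℂ} {G : PowerSeries ℂ} (h : qD * G ∈ RSer R) :
    G ∈ RSer R := by
  rw [h15_qD_eq, mul_assoc] at h
  have h1 : etaU * G ∈ RSer R := h15_of_X_mul_mem h
  have h2 : etaUInv * (etaU * G) ∈ RSer R :=
    Subring.mul_mem _ (h15_map_int_mem R _) h1
  have e : etaUInv * (etaU * G) = G := by
    rw [← mul_assoc, mul_comm etaUInv etaU, h15_etaU_mul_inv, one_mul]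
  rwa [e] at h2

end Fermat.Agent.S16x.L1.H15
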