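import Fermat.Agent.S16x.L1.H15_Tri

/-!
# S16, package L1: level-one forms are isobaric polynomials in `E₄`, `E₆` (`StPOLY`)

If `1/6 ∈ R`, a level-one modular form of weight `k` whose `q`-expansion has coefficients in the
subring `R` of `ℂ` is `P(E₄, E₆)` for a polynomial `P ∈ R[X₀, X₁]`, isobaric of weight `k`
(weights `4`, `6`).

* `h15_qD_eq_poly` : `1728 Δ = E₄³ - E₆²` for `q`-expansions;
* `h15_stPOLY : StPOLY`.
-/

set_option autoImplicit false

namespace Fermat.Agent.S16x.L1.H15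

open ModularForm EisensteinSeries ModularFormClass UpperHalfPlane
open scoped MatrixGroups

/-- The weight `12` form `E₄³ - E₆²`. -/
noncomputable def e4e6 : ModularForm 𝒮ℒ 12 :=
  ModularForm.mcast (by decide) (E₄.pow 3) - ModularForm.mcast (by decide) (E₆.pow 2)

theorem h15_e4e6_apply (z : ℍ) : e4e6 z = E₄ z ^ 3 - E₆ z ^ 2 := by
  simp only [e4e6, coe_mcast, coe_pow, sub_apply, Pi.pow_apply]

theorem h15_e4e6_qExpansion : qExpansion 1 e4e6 = qE4 ^ 3 - qE6 ^ 2 := by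
  simp only [e4e6, FunLike.coe_sub, coe_mcast,
    ModularForm.qExpansion_sub one_pos one_mem_strictPeriods_SL,
    ModularForm.qExpansion_pow one_pos one_mem_strictPeriods_SL]
  rfl

/-- `1728 Δ = E₄³ - E₆²` on the level of `q`-expansions. -/
theorem h15_qD_eq_poly : PowerSeries.C (1728 : ℂ) * qD = qE4 ^ 3 - qE6 ^ 2 := by
  rw [← h15_e4e6_qExpansion, ← PowerSeries.smul_eq_C_mul]
  have h : ((1728 : ℂ) • CuspForm.discriminant : CuspForm 𝒮ℒ 12) = (e4e6 : ℍ → ℂ) := by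
    ext z
    rw [h15_e4e6_apply]
    have := discriminant_eq_E₄_cube_sub_E₆_sq z
    change (1728 : ℂ) * ModularForm.discriminant z = _
    rw [this]
    ring
  rw [← h]
  exact (ModularForm.qExpansion_smul one_pos one_mem_strictPeriods_SL (1728 : ℂ)
    CuspForm.discriminant).symm

theorem h15_inv_1728_mem {R : Subring ℂ} (h6 : (6 : ℂ)⁻¹ ∈ R) : (1728 : ℂ)⁻¹ ∈ R := by
  have h2 : (2 : ℂ)⁻¹ ∈ R := by
    have : (2 : ℂ)⁻¹ = 3 * (6 : ℂ)⁻¹ := by norm_num
    rw [this]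
    exact Subring.mul_mem _ (by exact_mod_cast natCast_mem R 3) h6
  have e : (1728 : ℂ)⁻¹ = (6 : ℂ)⁻¹ ^ 3 * (2 : ℂ)⁻¹ ^ 3 := by norm_num
  rw [e]
  exact Subring.mul_mem _ (Subring.pow_mem _ h6 3) (Subring.pow_mem _ h2 3)

/-- The polynomial `(X₀³ - X₁²) / 1728` over `R`. -/
noncomputable def polyD (R : Subring ℂ) (h6 : (6 : ℂ)⁻¹ ∈ R) : MvPolynomial (Fin 2) R :=
  MvPolynomial.C (⟨(1728 : ℂ)⁻¹, h15_inv_1728_mem h6⟩ : R) *
    (MvPolynomial.X 0 ^ 3 - MvPolynomial.X 1 ^ 2)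

theorem h15_algebraMap_apply (R : Subring ℂ) (r : R) :
    algebraMap R (PowerSeries ℂ) r = PowerSeries.C (r : ℂ) := by
  rw [PowerSeries.algebraMap_apply]
  rfl

theorem h15_aeval_polyD (R : Subring ℂ) (h6 : (6 : ℂ)⁻¹ ∈ R) :
    MvPolynomial.aeval ![qE4, qE6] (polyD R h6) = qD := by
  rw [polyD, map_mul, MvPolynomial.aeval_C, map_sub, map_pow, map_pow, MvPolynomial.aeval_X,
    MvPolynomial.aeval_X, h15_algebraMap_apply]
  simp only [Matrix.cons_val_zero, Matrix.cons_val_one]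
  rw [← h15_qD_eq_poly, ← mul_assoc, ← map_mul]
  norm_num

theorem h15_isWH_polyD (R : Subring ℂ) (h6 : (6 : ℂ)⁻¹ ∈ R) :
    MvPolynomial.IsWeightedHomogeneous ![4, 6] (polyD R h6) 12 := by
  have h0 : MvPolynomial.IsWeightedHomogeneous ![4, 6]
      ((MvPolynomial.X 0 : MvPolynomial (Fin 2) R) ^ 3) 12 := by
    have := (MvPolynomial.isWeightedHomogeneous_X R ![4, 6] (0 : Fin 2)).pow 3
    simpa using this
  have h1 : MvPolynomial.IsWeightedHomogeneous ![4, 6]
      ((MvPolynomial.X 1 : MvPolynomial (Fin 2) R) ^ 2) 12 := by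
    have := (MvPolynomial.isWeightedHomogeneous_X R ![4, 6] (1 : Fin 2)).pow 2
    simpa using this
  exact (h0.sub h1).C_mul _

/-- Elements of `TSpan R k` are isobaric polynomials in `E₄`, `E₆` over `R` (if `1/6 ∈ R`). -/
theorem h15_poly_of_mem_TSpan (R : Subring ℂ) (h6 : (6 : ℂ)⁻¹ ∈ R) {k : ℤ} (hk : 0 ≤ k)
    {F : PowerSeries ℂ} (hmem : F ∈ TSpan R k) :
    ∃ P : MvPolynomial (Fin 2) R, MvPolynomial.IsWeightedHomogeneous ![4, 6] P k.toNat ∧
      F = MvPolynomial.aeval ![qE4, qE6] P := by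
  · induction hmem using Submodule.span_induction with
    | mem F hF =>
      obtain ⟨a, x, y, hw, rfl⟩ := hF
      refine ⟨polyD R h6 ^ a * MvPolynomial.X 0 ^ x * MvPolynomial.X 1 ^ y, ?_, ?_⟩
      · have h0 := (MvPolynomial.isWeightedHomogeneous_X R ![4, 6] (0 : Fin 2)).pow x
        have h1 := (MvPolynomial.isWeightedHomogeneous_X R ![4, 6] (1 : Fin 2)).pow y
        have h2 := (((h15_isWH_polyD R h6).pow a).mul h0).mul h1
        have e : a • 12 + x • (![4, 6] : Fin 2 → ℕ) 0 + y • (![4, 6] : Fin 2 → ℕ) 1 = k.toNat := by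
          simp only [Matrix.cons_val_zero, Matrix.cons_val_one, smul_eq_mul]
          omega
        rwa [e] at h2
      · rw [map_mul, map_mul, map_pow, map_pow, map_pow, h15_aeval_polyD, MvPolynomial.aeval_X,
          MvPolynomial.aeval_X]
        simp only [Matrix.cons_val_zero, Matrix.cons_val_one]
    | zero => exact ⟨0, MvPolynomial.isWeightedHomogeneous_zero _ _ _, by rw [map_zero]⟩
    | add F G _ _ hF hG =>
      obtain ⟨P, hP, rfl⟩ := hF
      obtain ⟨Q, hQ, rfl⟩ := hG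
      exact ⟨P + Q, hP.add hQ, by rw [map_add]⟩
    | smul r F _ hF =>
      obtain ⟨P, hP, rfl⟩ := hF
      refine ⟨MvPolynomial.C r * P, hP.C_mul r, ?_⟩
      rw [map_mul, MvPolynomial.aeval_C, h15_algebraMap_apply, h15_smul_eq]

/-- **[POLY]**. -/
theorem h15_stPOLY : StPOLY := by
  intro R h6 k f hf
  rcases lt_or_ge k 0 with hk | hk
  · refine ⟨0, MvPolynomial.isWeightedHomogeneous_zero _ _ _, ?_⟩
    have hz : (f : ℍ → ℂ) = 0 := levelOne_neg_weight_eq_zero hk f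
    rw [hz, h15_qExpansion_zero_fun, map_zero]
  · exact h15_poly_of_mem_TSpan R h6 hk (h15_mem_TSpan R k f hf)

end Fermat.Agent.S16x.L1.H15
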